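import Fermat.Agent.S52.B3.Statement
import Fermat.Agent.S52.H712.Main

/-!
# S52 / B3: `hit : HIT` (frozen interface of `Fermat/Agent/S52/B3/Statement.lean`)

Adapter from `Fermat.Agent.S52.H712.exists_rootless` (integer polynomials in `n`, `n → ∞`) to the
frozen shape `HIT` (rational polynomials in `t`, `t = T/(r + kM) → 0`).
-/

namespace Fermat.Agent.S52.B3.H712

open Polynomial

section Aux

variable {K : Type*} [Field K]

lemma eval_reflect_eq (f : K[X]) (N : ℕ) (hf : f.natDegree ≤ N) (t : K) (ht : t ≠ 0) :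
    (reflect N f).eval t = f.eval t⁻¹ * t ^ N := by
  let _ : Invertible t := invertibleOfNonzero ht
  have hdeg : (reflect N f).natDegree ≤ N := natDegree_reflect_le.trans (max_le le_rfl hf)
  have := eval₂_reflect_mul_pow (RingHom.id K) t N (reflect N f) hdeg
  rw [reflect_reflect] at this
  simpa [eval₂_id, invOf_eq_inv] using this.symm

lemma eval_scale (f : K[X]) (T s : K) : (f.comp (C T * X)).eval s = f.eval (T * s) := by
  simp [eval_comp]

lemma natDegree_scale_le (f : K[X]) (T : K) : (f.comp (C T * X)).natDegree ≤ f.natDegree := by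
  refine natDegree_comp_le.trans ?_
  have : (C T * X : K[X]).natDegree ≤ 1 := (natDegree_C_mul_le T X).trans natDegree_X_le
  calc f.natDegree * (C T * X : K[X]).natDegree ≤ f.natDegree * 1 := Nat.mul_le_mul_left _ this
    _ = f.natDegree := mul_one _

/-- The reflected-scaled polynomial `n ↦ n^N f(T/n)`. -/
noncomputable def hom (f : K[X]) (N : ℕ) (T : K) : K[X] := reflect N (f.comp (C T * X))

lemma natDegree_hom_le (f : K[X]) (N : ℕ) (T : K) (hf : f.natDegree ≤ N) :
    (hom f N T).natDegree ≤ N :=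
  natDegree_reflect_le.trans (max_le le_rfl ((natDegree_scale_le f T).trans hf))

lemma eval_hom (f : K[X]) (N : ℕ) (T : K) (hf : f.natDegree ≤ N) (n : K) (hn : n ≠ 0) :
    (hom f N T).eval n = n ^ N * f.eval (T / n) := by
  unfold hom
  rw [eval_reflect_eq _ N ((natDegree_scale_le f T).trans hf) n hn, eval_scale, mul_comm,
    div_eq_mul_inv]

lemma coeff_hom_top (f : K[X]) (N : ℕ) (T : K) : (hom f N T).coeff N = f.eval 0 := by
  unfold hom
  rw [coeff_reflect]
  have : revAt N N = 0 := by rw [revAt_le le_rfl]; simp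
  rw [this, coeff_zero_eq_eval_zero, eval_scale, mul_zero]

end Aux

/-- Clearing denominators of a rational polynomial. -/
lemma exists_int_multiple (p : ℚ[X]) :
    ∃ (D : ℤ) (q : ℤ[X]), D ≠ 0 ∧ q.map (Int.castRingHom ℚ) = C (D : ℚ) * p := by
  obtain ⟨b, hb, h⟩ := IsLocalization.integerNormalization_spec (nonZeroDivisors ℤ) p
  refine ⟨b, IsLocalization.integerNormalization (nonZeroDivisors ℤ) p,
    nonZeroDivisors.ne_zero hb, ?_⟩
  have e : (algebraMap ℤ ℚ) = Int.castRingHom ℚ := rfl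
  rw [e] at h
  rw [h]
  ext i
  simp [zsmul_eq_mul]

lemma natDegree_le_of_map_eq (q : ℤ[X]) (p : ℚ[X]) (D : ℚ)
    (h : q.map (Int.castRingHom ℚ) = C D * p) : q.natDegree ≤ p.natDegree := by
  have h1 : (q.map (Int.castRingHom ℚ)).natDegree = q.natDegree :=
    natDegree_map_eq_of_injective (RingHom.injective_int (Int.castRingHom ℚ)) q
  rw [← h1, h]
  exact natDegree_C_mul_le D p

theorem hit : Fermat.Agent.S52.B3.HIT := by
  intro A B hdisc _hx0 hNPR T hT M hM r N0
  classical
  set d : ℕ := max A.natDegree B.natDegree with hd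
  have hAd : A.natDegree ≤ 2 * d := by
    have h1 : A.natDegree ≤ d := le_max_left _ _
    omega
  have hBd : B.natDegree ≤ 3 * d := by
    have h1 : B.natDegree ≤ d := le_max_right _ _
    omega
  set ah : ℚ[X] := hom A (2 * d) T with hah
  set bh : ℚ[X] := hom B (3 * d) T with hbh
  obtain ⟨Da, a₀, hDa, ha₀⟩ := exists_int_multiple ah
  obtain ⟨Db, b₀, hDb, hb₀⟩ := exists_int_multiple bh
  set D : ℤ := Da * Db with hD
  have hDne : D ≠ 0 := mul_ne_zero hDa hDb
  have hDq : (D : ℚ) ≠ 0 := by exact_mod_cast hDne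
  set a' : ℤ[X] := C (D * Db) * a₀ with ha'
  set b' : ℤ[X] := C (D ^ 2 * Da) * b₀ with hb'
  have hmapa : a'.map (Int.castRingHom ℚ) = C ((D : ℚ) ^ 2) * ah := by
    rw [ha', Polynomial.map_mul, map_C, ha₀, ← mul_assoc, ← C_mul]
    congr 2
    simp only [eq_intCast]
    rw [hD]; push_cast; ring
  have hmapb : b'.map (Int.castRingHom ℚ) = C ((D : ℚ) ^ 3) * bh := by
    rw [hb', Polynomial.map_mul, map_C, hb₀, ← mul_assoc, ← C_mul]
    congr 2
    simp only [eq_intCast]
    rw [hD]; push_cast; ring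
  have hdega : a'.natDegree ≤ 2 * d :=
    (natDegree_le_of_map_eq a' ah _ hmapa).trans (natDegree_hom_le A (2 * d) T hAd)
  have hdegb : b'.natDegree ≤ 3 * d :=
    (natDegree_le_of_map_eq b' bh _ hmapb).trans (natDegree_hom_le B (3 * d) T hBd)
  -- leading coefficients
  have hca : ((a'.coeff (2 * d) : ℤ) : ℚ) = (D : ℚ) ^ 2 * A.eval 0 := by
    have := congrArg (fun p => p.coeff (2 * d)) hmapa
    simp only [coeff_map, coeff_C_mul, eq_intCast] at this
    rw [this, hah, coeff_hom_top]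
  have hcb : ((b'.coeff (3 * d) : ℤ) : ℚ) = (D : ℚ) ^ 3 * B.eval 0 := by
    have := congrArg (fun p => p.coeff (3 * d)) hmapb
    simp only [coeff_map, coeff_C_mul, eq_intCast] at this
    rw [this, hbh, coeff_hom_top]
  have hdisc' : 4 * (a'.coeff (2 * d)) ^ 3 + 27 * (b'.coeff (3 * d)) ^ 2 ≠ 0 := by
    intro h0
    have h1 : (4 : ℚ) * ((a'.coeff (2 * d) : ℤ) : ℚ) ^ 3 + 27 * ((b'.coeff (3 * d) : ℤ) : ℚ) ^ 2
        = 0 := by exact_mod_cast h0
    rw [hca, hcb] at h1
    have h2 : (D : ℚ) ^ 6 * (4 * (A.eval 0) ^ 3 + 27 * (B.eval 0) ^ 2) = 0 := by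
      linear_combination h1
    rcases mul_eq_zero.mp h2 with h | h
    · exact hDq (pow_eq_zero_iff (by norm_num) |>.mp h)
    · exact hdisc h
  -- evaluation of the integer polynomials
  have heva : ∀ n : ℚ, n ≠ 0 → (a'.map (Int.castRingHom ℚ)).eval n =
      ((D : ℚ) * n ^ d) ^ 2 * A.eval (T / n) := by
    intro n hn
    rw [hmapa, eval_mul, eval_C, hah, eval_hom A (2 * d) T hAd n hn]
    ring
  have hevb : ∀ n : ℚ, n ≠ 0 → (b'.map (Int.castRingHom ℚ)).eval n =
      ((D : ℚ) * n ^ d) ^ 3 * B.eval (T / n) := by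
    intro n hn
    rw [hmapb, eval_mul, eval_C, hbh, eval_hom B (3 * d) T hBd n hn]
    ring
  have hscale : ∀ a b x l : ℚ, Fermat.Agent.S52.H712.quartic (l ^ 2 * a) (l ^ 3 * b) (l * x) =
      l ^ 4 * Fermat.Agent.S52.B3.quartic a b x := by
    intro a b x l
    simp only [Fermat.Agent.S52.H712.quartic, Fermat.Agent.S52.B3.quartic]; ring
  -- no polynomial root
  have hnoroot : ∀ R : ℚ[X], R.natDegree ≤ d →
      Fermat.Agent.S52.H712.quartic (a'.map (Int.castRingHom ℚ)) (b'.map (Int.castRingHom ℚ)) R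
        ≠ 0 := by
    intro R hR h0
    set P : ℚ[X] := C ((D : ℚ)⁻¹ * (T ^ d)⁻¹) * hom R d T with hP
    apply hNPR P
    apply Polynomial.eq_zero_of_infinite_isRoot
    refine Set.Infinite.mono ?_ (Set.finite_singleton (0 : ℚ)).infinite_compl
    intro t ht
    have ht0 : t ≠ 0 := by simpa using ht
    show (Fermat.Agent.S52.B3.quartic A B P).eval t = 0
    have hq : (Fermat.Agent.S52.B3.quartic A B P).eval t =
        Fermat.Agent.S52.B3.quartic (A.eval t) (B.eval t) (P.eval t) := by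
      simp only [Fermat.Agent.S52.B3.quartic, eval_sub, eval_add, eval_mul, eval_pow, eval_ofNat]
    rw [hq]
    set n : ℚ := T / t with hn
    have hn0 : n ≠ 0 := div_ne_zero hT ht0
    have htn : T / n = t := by rw [hn]; field_simp
    have h1 := congrArg (fun p => p.eval n) h0
    simp only [eval_zero] at h1
    have hq' : (Fermat.Agent.S52.H712.quartic (a'.map (Int.castRingHom ℚ))
        (b'.map (Int.castRingHom ℚ)) R).eval n =
        Fermat.Agent.S52.H712.quartic ((a'.map (Int.castRingHom ℚ)).eval n)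
          ((b'.map (Int.castRingHom ℚ)).eval n) (R.eval n) := by
      simp only [Fermat.Agent.S52.H712.quartic, eval_sub, eval_add, eval_mul, eval_pow, eval_ofNat]
    rw [hq', heva n hn0, hevb n hn0, htn] at h1
    set l : ℚ := (D : ℚ) * n ^ d with hl
    have hl0 : l ≠ 0 := mul_ne_zero hDq (pow_ne_zero _ hn0)
    have hPev : P.eval t = R.eval n / l := by
      rw [hP, eval_mul, eval_C, eval_hom R d T hR t ht0, hl, hn, div_pow]
      field_simp
    have hR' : R.eval n = l * (R.eval n / l) := by field_simp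
    rw [hR', hscale] at h1
    rw [hPev]
    exact (mul_eq_zero.mp h1).resolve_left (pow_ne_zero _ hl0)
  obtain ⟨n, hnN, hnmod, hroot⟩ := Fermat.Agent.S52.H712.exists_rootless d a' b' hdega hdegb
    hdisc' hnoroot M hM r (r + N0 * M + 1)
  -- n = r + k * M
  have hrn : r ≤ n := by omega
  have hdvd : M ∣ n - r := (Nat.modEq_iff_dvd' hrn).mp hnmod.symm
  obtain ⟨k, hk⟩ := hdvd
  have hnk : n = r + k * M := by rw [mul_comm]; omega
  refine ⟨k, ?_, ?_⟩
  · by_contra hlt
    push Not at hlt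
    have : k * M ≤ N0 * M := Nat.mul_le_mul_right _ hlt.le
    omega
  · intro z hz
    rw [← hnk] at hz
    have hnpos : 0 < n := by omega
    have hnq : (n : ℚ) ≠ 0 := by exact_mod_cast hnpos.ne'
    set l : ℚ := (D : ℚ) * (n : ℚ) ^ d with hl
    apply hroot (l * z)
    have ea : ((a'.eval (n : ℤ) : ℤ) : ℚ) = l ^ 2 * A.eval (T / n) := by
      rw [← heva (n : ℚ) hnq]
      simp
    have eb : ((b'.eval (n : ℤ) : ℤ) : ℚ) = l ^ 3 * B.eval (T / n) := by
      rw [← hevb (n : ℚ) hnq]
      simp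
    rw [ea, eb, hscale, hz, mul_zero]

end Fermat.Agent.S52.B3.H712
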